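import Mathlib
import Fermat.Agent.BR.SS.LiftLarge
import Fermat.Agent.FF3.B4.Runge

/-!
# PROGRAMME I, node T2(b) AUXDIV (helper21): the auxiliary divisors of the algebraisation step,
abstract form

For a semistable setup `S` with the lifting lemma `LiftLarge S` (main: `S.liftLarge_of_resRank`)
and a directed family of "level" subfields `F₀ j ≤ F` exhausting `F` (cofinally), each containing
the constants of a subfield `K' j ≤ K` whose integers surject onto the residue field: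

* `exists_lifts_span` : in large multidegree the glued Riemann–Roch space of `push E'` is spanned
  by the residue tuples of finitely many elements of `L(E') ∩ Oall`;
* `exists_level_ratLift` : hence `B4.RatLift S hdeg (F₀ j) E'` at every large level `j`
  (helper22's `ratLiftOfLifts`);
* `exists_auxDiv` : for every smooth-supported `D` there are effective disjoint smooth-supported
  `E₀`, `E₁` (avoiding the fibres over a given finite set `Y` of points of the special fibre) with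
  `RatLift (-D + E₀)` and `RatLift (-D + E₁)` at every large level: the inputs `hl₀`, `hl₁` of
  `B4.ExpPack.principal_of_roots` / `B4.PrincipalOfSectionStatement`.
-/

set_option autoImplicit false

namespace Fermat.Agent.FF3.AuxDiv

open AlgebraicCurve Fermat.Agent.Red Fermat.Agent.BR.SS Fermat.Agent.BR.GlueG Fermat.Agent.FF3.B4

variable {K F k : Type*} [Field K] [Field F] [Algebra K F] [Field k]
  {A : ValuationSubring K} {π : A →+* k} {ι : Type*} {Ft : ι → Type*}
  [∀ v, Field (Ft v)] [∀ v, Algebra k (Ft v)] {ν : Type*}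
  (S : SemistableSetup (F := F) A π ι Ft ν)

/-- The support of a sum of two smooth-supported divisors is smooth. -/
theorem smooth_add {D E : Divisor K F} (hD : ∀ P ∈ D.support, S.IsSmoothPlace P)
    (hE : ∀ P ∈ E.support, S.IsSmoothPlace P) : ∀ P ∈ (D + E).support, S.IsSmoothPlace P := by
  classical
  intro P hP
  have : D P ≠ 0 ∨ E P ≠ 0 := by
    by_contra hcon
    push Not at hcon
    apply Finsupp.mem_support_iff.mp hP
    rw [Finsupp.add_apply, hcon.1, hcon.2, add_zero]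
  rcases this with h | h
  · exact hD P (Finsupp.mem_support_iff.mpr h)
  · exact hE P (Finsupp.mem_support_iff.mpr h)

/-- The support of the opposite of a smooth-supported divisor is smooth. -/
theorem smooth_neg {D : Divisor K F} (hD : ∀ P ∈ D.support, S.IsSmoothPlace P) :
    ∀ P ∈ (-D).support, S.IsSmoothPlace P := by
  intro P hP
  rw [Finsupp.support_neg] at hP
  exact hD P hP

/-- **Finitely many lifts span the residue space**: in large multidegree (the bound `c` of
`LiftLarge`) the glued Riemann–Roch space of `push E'` is spanned by the residue tuples of finitely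
many elements of `L(E') ∩ Oall`. -/
theorem exists_lifts_span [Finite ι] (hFt : ∀ v, RiemannPkg k (Ft v))
    (hdeg : ∀ v (Q : Place k (Ft v)), Q.deg = 1) {c : ι → ℤ}
    (hc : ∀ E : Divisor K F, (∀ P ∈ E.support, S.IsSmoothPlace P) →
      (∀ v, c v ≤ Divisor.degree (S.push E v)) →
      ∀ t : ∀ v, Ft v, (∀ v, t v ∈ riemannRochSpace (S.push E v)) → S.MatchAt t →
        ∃ y ∈ riemannRochSpace E, y ∈ S.Oall ∧ S.resAll y = t)
    (E' : Divisor K F) (hE' : ∀ P ∈ E'.support, S.IsSmoothPlace P)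
    (hdegE : ∀ v, c v ≤ Divisor.degree (S.push E' v)) :
    ∃ (d : ℕ) (b : Fin d → F), (∀ i, b i ∈ riemannRochSpace E' ∧ b i ∈ S.Oall) ∧
      gluedRR (S.graphNodes hdeg) (S.push E') ≤
        Submodule.span k (Set.range fun i => S.resAll (b i)) := by
  classical
  have hoff : ∀ e, S.push E' (S.src e) (S.s₁ e) = 0 ∧ S.push E' (S.tgt e) (S.s₂ e) = 0 :=
    fun e => ⟨S.push_apply_src hE' e, S.push_apply_tgt hE' e⟩
  have hfin : Module.Finite k (gluedRR (S.graphNodes hdeg) (S.push E')) :=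
    finite_gluedRR hFt _ _ hoff
  obtain ⟨d, s, hs⟩ := Module.Finite.exists_fin (R := k)
    (M := gluedRR (S.graphNodes hdeg) (S.push E'))
  have hlift : ∀ i, ∃ y ∈ riemannRochSpace E', y ∈ S.Oall ∧ S.resAll y = (s i : ∀ v, Ft v) :=
    fun i => hc E' hE' hdegE _ (s i).2.1 (S.forall_isValueAt_of_mem_gluedRR hdeg (s i).2)
  choose b hbL hbO hbres using hlift
  refine ⟨d, b, fun i => ⟨hbL i, hbO i⟩, fun t ht => ?_⟩
  have h1 : (⟨t, ht⟩ : gluedRR (S.graphNodes hdeg) (S.push E')) ∈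
      Submodule.span k (Set.range s) := by
    rw [hs]
    exact Submodule.mem_top
  have h2 := Submodule.mem_map_of_mem
    (f := (gluedRR (S.graphNodes hdeg) (S.push E')).subtype) h1
  rw [Submodule.map_span, ← Set.range_comp] at h2
  have h3 : ((gluedRR (S.graphNodes hdeg) (S.push E')).subtype ∘ s) =
      fun i => S.resAll (b i) := by
    funext i
    exact (hbres i).symm
  rw [h3] at h2
  exact h2

variable {J : Type*} [Preorder J] [IsDirected J (· ≤ ·)] [Nonempty J]

/-- **Rational lifting at every large level.** -/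
theorem exists_level_ratLift [Finite ι] (hFt : ∀ v, RiemannPkg k (Ft v))
    (hdeg : ∀ v (Q : Place k (Ft v)), Q.deg = 1) {c : ι → ℤ}
    (hc : ∀ E : Divisor K F, (∀ P ∈ E.support, S.IsSmoothPlace P) →
      (∀ v, c v ≤ Divisor.degree (S.push E v)) →
      ∀ t : ∀ v, Ft v, (∀ v, t v ∈ riemannRochSpace (S.push E v)) → S.MatchAt t →
        ∃ y ∈ riemannRochSpace E, y ∈ S.Oall ∧ S.resAll y = t)
    (F₀ : J → Subfield F) (hex : ∀ y : F, ∃ j, ∀ j', j ≤ j' → y ∈ F₀ j')
    (K' : J → Subfield K) (hK' : ∀ j (a : K' j), algebraMap K F (a : K) ∈ F₀ j)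
    (hsurj : ∀ j (cb : k), ∃ a : K' j, ∃ ha : (a : K) ∈ A, π ⟨a, ha⟩ = cb)
    (E' : Divisor K F) (hE' : ∀ P ∈ E'.support, S.IsSmoothPlace P)
    (hdegE : ∀ v, c v ≤ Divisor.degree (S.push E' v)) :
    ∃ j₀, ∀ j, j₀ ≤ j → RatLift S hdeg (F₀ j) E' := by
  classical
  obtain ⟨d, b, hb, hspan⟩ := exists_lifts_span S hFt hdeg hc E' hE' hdegE
  choose jb hjb using fun i => hex (b i)
  obtain ⟨j₀, hj₀⟩ := Finset.exists_le (Finset.univ.image jb)
  refine ⟨j₀, fun j hj => ?_⟩
  have hmem : ∀ i, b i ∈ F₀ j := fun i =>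
    hjb i j ((hj₀ (jb i) (Finset.mem_image_of_mem jb (Finset.mem_univ i))).trans hj)
  exact ratLiftOfLifts E' (K' j) (hK' j) (hsurj j) d (fun i => ⟨b i, hmem i⟩) hb hspan

/-- **(T2(b)) THE AUXILIARY DIVISORS.**  For a smooth-supported divisor `D` there are effective,
disjoint, smooth-supported divisors `E₀`, `E₁`, whose points reduce outside a given finite set `Y`
of points of the special fibre, such that `-D + E₀` and `-D + E₁` have rational lifting at every
large level. -/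
theorem exists_auxDiv [HasPrincipalDivisors K F] [Fintype ι] [Finite ν]
    (hFt : ∀ v, RiemannPkg k (Ft v)) (hdeg : ∀ v (Q : Place k (Ft v)), Q.deg = 1)
    (hLL : LiftLarge S)
    (F₀ : J → Subfield F) (hex : ∀ y : F, ∃ j, ∀ j', j ≤ j' → y ∈ F₀ j')
    (K' : J → Subfield K) (hK' : ∀ j (a : K' j), algebraMap K F (a : K) ∈ F₀ j)
    (hsurj : ∀ j (cb : k), ∃ a : K' j, ∃ ha : (a : K) ∈ A, π ⟨a, ha⟩ = cb)
    (D : Divisor K F) (hD : ∀ P ∈ D.support, S.IsSmoothPlace P)
    (Y : Set (Σ v, Place k (Ft v))) (hY : Y.Finite) :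
    ∃ E₀ E₁ : Divisor K F, 0 ≤ E₀ ∧ 0 ≤ E₁ ∧ (∀ P, E₀ P = 0 ∨ E₁ P = 0) ∧
      (∀ P ∈ E₀.support, S.IsSmoothPlace P) ∧ (∀ P ∈ E₁.support, S.IsSmoothPlace P) ∧
      (∀ P ∈ E₀.support, S.r P ∉ Y) ∧ (∀ P ∈ E₁.support, S.r P ∉ Y) ∧
      ∃ j₀, ∀ j, j₀ ≤ j →
        RatLift S hdeg (F₀ j) (-D + E₀) ∧ RatLift S hdeg (F₀ j) (-D + E₁) := by
  classical
  obtain ⟨c, hc⟩ := hLL
  set n : ι → ℕ := fun v => (c v - Divisor.degree (S.push (-D) v)).toNat with hn
  obtain ⟨P₀, E₀, -, hP₀s, hP₀Y, -, hE₀supp, hE₀pos, hE₀deg⟩ :=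
    S.exists_effective_smooth hFt n Y hY
  obtain ⟨P₁, E₁, -, hP₁s, hP₁Y, -, hE₁supp, hE₁pos, hE₁deg⟩ :=
    S.exists_effective_smooth hFt n (Y ∪ Set.range fun v => S.r (P₀ v))
      (hY.union (Set.finite_range _))
  have hE₀sm : ∀ P ∈ E₀.support, S.IsSmoothPlace P := by
    intro P hP
    obtain ⟨v, rfl⟩ := hE₀supp P hP
    exact hP₀s v
  have hE₁sm : ∀ P ∈ E₁.support, S.IsSmoothPlace P := by
    intro P hP
    obtain ⟨v, rfl⟩ := hE₁supp P hP
    exact hP₁s v
  have hnD := smooth_neg S hD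
  have hdeg' : ∀ (E : Divisor K F), (∀ v, Divisor.degree (S.push E v) = n v) →
      ∀ v, c v ≤ Divisor.degree (S.push (-D + E) v) := by
    intro E hE v
    rw [S.push_add, map_add, hE v, hn]
    have := Int.self_le_toNat (c v - Divisor.degree (S.push (-D) v))
    linarith
  obtain ⟨j₀, hj₀⟩ := exists_level_ratLift S hFt hdeg hc F₀ hex K' hK' hsurj (-D + E₀)
    (smooth_add S hnD hE₀sm) (hdeg' E₀ hE₀deg)
  obtain ⟨j₁, hj₁⟩ := exists_level_ratLift S hFt hdeg hc F₀ hex K' hK' hsurj (-D + E₁)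
    (smooth_add S hnD hE₁sm) (hdeg' E₁ hE₁deg)
  obtain ⟨j₂, h02, h12⟩ := exists_ge_ge j₀ j₁
  refine ⟨E₀, E₁, hE₀pos, hE₁pos, fun P => ?_, hE₀sm, hE₁sm, ?_, ?_, j₂, fun j hj =>
    ⟨hj₀ j (h02.trans hj), hj₁ j (h12.trans hj)⟩⟩
  · by_contra hcon
    push Not at hcon
    obtain ⟨v, rfl⟩ := hE₀supp P (Finsupp.mem_support_iff.mpr hcon.1)
    obtain ⟨w, hw⟩ := hE₁supp _ (Finsupp.mem_support_iff.mpr hcon.2)
    exact hP₁Y w (Or.inr ⟨v, congrArg S.r hw⟩)
  · intro P hP
    obtain ⟨v, rfl⟩ := hE₀supp P hP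
    exact hP₀Y v
  · intro P hP
    obtain ⟨v, rfl⟩ := hE₁supp P hP
    exact fun h => hP₁Y v (Or.inl h)

end Fermat.Agent.FF3.AuxDiv
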