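import Mathlib
import Fermat.Agent.BR.Inst.Levels
import Fermat.Agent.BR.S0.Genus
import Fermat.Agent.BR.SS.Main
import Fermat.Agent.BR2.SetupOfData
import Fermat.Agent.FF3.AuxDiv.Abstract

/-!
# PROGRAMME I, node T2(b) AUXDIV (helper21): the auxiliary divisors at the finite levels of the
modular tower

Levels as on the BOARD (v1.4): `L : Finset Kb`, constants `KS q L`, function field
`FKs N (KS q L)` (`= FS N q L` by `rfl`).

* `exists_KS_residue_eq` : the integers of `KS q L` surject onto the residue field of `B`;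
* `liftLarge_of_genus`, `liftLarge_twoComp`, `liftLarge_setup` : the lifting lemma `LiftLarge` for
  a setup with the genus equality / a two-component setup of `X₀(qM)` with the supersingular number
  of nodes / main's `SetupOfData.setup Dt` at a level without elliptic points;
* `exists_auxDiv_levels` : `exists_auxDiv` for the family `L ↦ FKs N (KS q L)`;
* `exists_auxDiv_twoComp`, `exists_auxDiv_setup` : the same with `LiftLarge` discharged.
-/

set_option autoImplicit false
set_option linter.unusedSectionVars false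
set_option synthInstance.maxHeartbeats 400000

namespace Fermat.Agent.FF3.AuxDiv

open AlgebraicCurve ModularCurve IsLocalRing Fermat.Agent.X0 Fermat.Agent.Val Fermat.Agent.Red
  Fermat.Agent.BR.SS Fermat.Agent.BR.GlueG Fermat.Agent.BR.Inst.Levels
  Fermat.Agent.BR.Inst.FKCover Fermat.Agent.BR.S0 Fermat.Agent.BR.GenusCount Fermat.Agent.FF3.B4

/-- The integers of the level field `KS q L` surject onto the residue field of `B`. -/
theorem exists_KS_residue_eq {q : ℕ} (hq : q.Prime) (B : ValuationSubring Kb)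
    (hB : B.LiesOverPrime q) (L : Finset Kb) (cb : ResidueField B) :
    ∃ a : KS q L, ∃ ha : (a : Kb) ∈ B, residue B ⟨a, ha⟩ = cb := by
  obtain ⟨⟨a, ha⟩, rfl⟩ := IsLocalRing.residue_surjective cb
  obtain ⟨a', ha', hd⟩ := fullRes_WS B hq hB L a ha
  refine ⟨⟨a', ha'.2⟩, ha'.1, ?_⟩
  symm
  rw [← sub_eq_zero, ← map_sub, IsLocalRing.residue_eq_zero_iff]
  obtain ⟨h1, h2⟩ := (B.mem_nonunits_iff_exists_mem_maximalIdeal).mp hd
  exact h2

section Generic

variable {K F k : Type*} [Field K] [Field F] [Algebra K F] [Field k]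
  {A : ValuationSubring K} {π : A →+* k} {ι : Type*} {Ft : ι → Type*}
  [∀ v, Field (Ft v)] [∀ v, Algebra k (Ft v)] {ν : Type*}

/-- `LiftLarge` from the genus equality (the first lines of `SS.mainStatement`). -/
theorem liftLarge_of_genus [Fintype ι] [Fintype ν] (S : SemistableSetup (F := F) A π ι Ft ν)
    (hF : RiemannPkg K F) (hFt : ∀ v, RiemannPkg k (Ft v))
    (hg : (genusFF K F : ℤ) =
      ∑ v, (genusFF k (Ft v) : ℤ) + Fintype.card ν - Fintype.card ι + 1) : LiftLarge S := by
  obtain ⟨P⟩ := hF.infinite_places.nonempty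
  have : Nonempty ι := ⟨(S.r P).1⟩
  have := hF.principal
  have hπ : Function.Surjective π := S.pi_surjective hF hFt
  have hR : ResRank S := fun V hV => by
    have : FiniteDimensional K V := hV
    exact ⟨S.resSpaceAll hπ V, fun t => S.mem_resSpaceAll hπ, S.finrank_resSpaceAll hπ V⟩
  exact S.liftLarge_of_resRank hF hFt hg hR

end Generic

section Levels

variable {N : ℕ} [NeZero N] {q : ℕ}

/-- **(T2(b)) the auxiliary divisors at the levels of the tower**: for a semistable setup of
`Fb N` over `B` with the lifting lemma, and a smooth-supported divisor `D`, there are effective,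
disjoint, smooth-supported `E₀`, `E₁` (reducing outside the finite set `Y`) with rational lifting
of `-D + E₀`, `-D + E₁` at every level `L ⊇ L₀`. -/
theorem exists_auxDiv_levels (hq : q.Prime) (B : ValuationSubring Kb) (hB : B.LiesOverPrime q)
    {ι : Type*} {Ft : ι → Type*} [∀ v, Field (Ft v)] [∀ v, Algebra (ResidueField B) (Ft v)]
    {ν : Type*} [Fintype ι] [Finite ν]
    (S : SemistableSetup (F := Fb N) B (residue B) ι Ft ν)
    (hFt : ∀ v, RiemannPkg (ResidueField B) (Ft v))
    (hdeg : ∀ v (Q : Place (ResidueField B) (Ft v)), Q.deg = 1) (hLL : LiftLarge S)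
    (D : Divisor Kb (Fb N)) (hD : ∀ P ∈ D.support, S.IsSmoothPlace P)
    (Y : Set (Σ v, Place (ResidueField B) (Ft v))) (hY : Y.Finite) :
    ∃ E₀ E₁ : Divisor Kb (Fb N), 0 ≤ E₀ ∧ 0 ≤ E₁ ∧ (∀ P, E₀ P = 0 ∨ E₁ P = 0) ∧
      (∀ P ∈ E₀.support, S.IsSmoothPlace P) ∧ (∀ P ∈ E₁.support, S.IsSmoothPlace P) ∧
      (∀ P ∈ E₀.support, S.r P ∉ Y) ∧ (∀ P ∈ E₁.support, S.r P ∉ Y) ∧
      ∃ L₀ : Finset Kb, ∀ L : Finset Kb, L₀ ⊆ L →
        RatLift S hdeg (FKs N (KS q L)) (-D + E₀) ∧
          RatLift S hdeg (FKs N (KS q L)) (-D + E₁) := by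
  classical
  haveI : HasPrincipalDivisors Kb (Fb N) := (Val.riemannPkg_bar N).principal
  exact exists_auxDiv (J := Finset Kb) S hFt hdeg hLL (fun L => FKs N (KS q L))
    (fun y => exists_forall_mem_FS N q y) (fun L => KS q L)
    (fun L a => const_mem_FS N q a.2) (fun L cb => exists_KS_residue_eq hq B hB L cb) D hD Y hY

end Levels

section TwoComp

variable {M q : ℕ} [NeZero M] [hq : Fact q.Prime]
variable (B : ValuationSubring Kb)

/-- `LiftLarge` for a two-component setup of `X₀(qM)` with the supersingular number of nodes. -/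
theorem liftLarge_twoComp (hB : B.LiesOverPrime q) (hqM : ¬ q ∣ M) {ν : Type*} [Fintype ν]
    (S : SemistableSetup (F := Fb (M * q)) B (residue B) (Fin 2)
      (fun _ => modularFunctionFieldFullC (ResidueField B) M) ν)
    (hcard : (Fintype.card ν : ℚ) = nodeCount q M) : LiftLarge S := by
  have : NeZero (M * q) := ⟨Nat.mul_ne_zero (NeZero.ne M) hq.out.ne_zero⟩
  exact liftLarge_of_genus S (Val.riemannPkg_bar (M * q))
    (fun _ => Val.riemannPkg_modL_residueField M hqM B hB)
    ((genus_hyp_iff M q B hB hqM ν).mpr hcard)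

/-- **(T2(b)) for a two-component setup of `X₀(qM)`** with the supersingular number of nodes. -/
theorem exists_auxDiv_twoComp (hB : B.LiesOverPrime q) (hqM : ¬ q ∣ M) {ν : Type*} [Fintype ν]
    (S : SemistableSetup (F := Fb (M * q)) B (residue B) (Fin 2)
      (fun _ => modularFunctionFieldFullC (ResidueField B) M) ν)
    (hcard : (Fintype.card ν : ℚ) = nodeCount q M)
    (hdeg : ∀ (v : Fin 2) (Q : Place (ResidueField B)
      (modularFunctionFieldFullC (ResidueField B) M)), Q.deg = 1)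
    (D : Divisor Kb (Fb (M * q))) (hD : ∀ P ∈ D.support, S.IsSmoothPlace P)
    (Y : Set (Σ _ : Fin 2, Place (ResidueField B)
      (modularFunctionFieldFullC (ResidueField B) M))) (hY : Y.Finite) :
    ∃ E₀ E₁ : Divisor Kb (Fb (M * q)), 0 ≤ E₀ ∧ 0 ≤ E₁ ∧ (∀ P, E₀ P = 0 ∨ E₁ P = 0) ∧
      (∀ P ∈ E₀.support, S.IsSmoothPlace P) ∧ (∀ P ∈ E₁.support, S.IsSmoothPlace P) ∧
      (∀ P ∈ E₀.support, S.r P ∉ Y) ∧ (∀ P ∈ E₁.support, S.r P ∉ Y) ∧
      ∃ L₀ : Finset Kb, ∀ L : Finset Kb, L₀ ⊆ L →
        RatLift S hdeg (FKs (M * q) (KS q L)) (-D + E₀) ∧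
          RatLift S hdeg (FKs (M * q) (KS q L)) (-D + E₁) := by
  have : NeZero (M * q) := ⟨Nat.mul_ne_zero (NeZero.ne M) hq.out.ne_zero⟩
  exact exists_auxDiv_levels hq.out B hB S
    (fun _ => Val.riemannPkg_modL_residueField M hqM B hB) hdeg
    (liftLarge_twoComp B hB hqM S hcard) D hD Y hY

end TwoComp

section Setup

open Fermat.Agent.BR.Final Fermat.Agent.BR2.SetupOfData Fermat.Agent.BR.S0.PointDict
  Fermat.Agent.BR.S0.RedModular

variable {M q : ℕ} [NeZero M] [hq : Fact q.Prime]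
variable {B : ValuationSubring Kb} {hB : B.LiesOverPrime q} {hqM : ¬ q ∣ M}
variable [IsAlgClosed (ResidueField B)]
variable (Dt : ModularData M q B hB hqM)

/-- `LiftLarge` for main's setup `SetupOfData.setup Dt` at a level without elliptic points. -/
theorem liftLarge_setup (h2 : nuTwo M = 0) (h3 : nuThree M = 0) : LiftLarge (setup Dt) := by
  letI := fintypeCrossing Dt
  exact liftLarge_twoComp B hB hqM (setup Dt) (card_crossing Dt h2 h3)

/-- **(T2(b)) for main's setup `SetupOfData.setup Dt`** at a level without elliptic points. -/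
theorem exists_auxDiv_setup (h2 : nuTwo M = 0) (h3 : nuThree M = 0)
    (hdeg : ∀ (v : Fin 2) (Q : Place (ResidueField B)
      (modularFunctionFieldFullC (ResidueField B) M)), Q.deg = 1)
    (D : Divisor Kb (Fb (M * q))) (hD : ∀ P ∈ D.support, (setup Dt).IsSmoothPlace P)
    (Y : Set (Σ _ : Fin 2, Place (ResidueField B)
      (modularFunctionFieldFullC (ResidueField B) M))) (hY : Y.Finite) :
    ∃ E₀ E₁ : Divisor Kb (Fb (M * q)), 0 ≤ E₀ ∧ 0 ≤ E₁ ∧ (∀ P, E₀ P = 0 ∨ E₁ P = 0) ∧
      (∀ P ∈ E₀.support, (setup Dt).IsSmoothPlace P) ∧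
      (∀ P ∈ E₁.support, (setup Dt).IsSmoothPlace P) ∧
      (∀ P ∈ E₀.support, (setup Dt).r P ∉ Y) ∧ (∀ P ∈ E₁.support, (setup Dt).r P ∉ Y) ∧
      ∃ L₀ : Finset Kb, ∀ L : Finset Kb, L₀ ⊆ L →
        RatLift (setup Dt) hdeg (FKs (M * q) (KS q L)) (-D + E₀) ∧
          RatLift (setup Dt) hdeg (FKs (M * q) (KS q L)) (-D + E₁) := by
  letI := fintypeCrossing Dt
  exact exists_auxDiv_twoComp B hB hqM (setup Dt) (card_crossing Dt h2 h3) hdeg D hD Y hY

end Setup

end Fermat.Agent.FF3.AuxDiv
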